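import Mathlib

/-!
# Rigidification of 2x2 matrix liftings over local rings (pure algebra, no Galois theory)

Interface for statement S53 (team route #382).
-/

set_option autoImplicit false

namespace Fermat.Agent.S53.Rigid

open IsLocalRing

universe u v w

section EntriesIn

variable {B : Type v} [CommRing B]

/-- All entries of `X` lie in the ideal `I`. -/
def EntriesIn (I : Ideal B) (X : Matrix (Fin 2) (Fin 2) B) : Prop :=
  ∀ p q, X p q ∈ I

theorem EntriesIn.mono {I J : Ideal B} (h : I ≤ J) {X : Matrix (Fin 2) (Fin 2) B}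
    (hX : EntriesIn I X) : EntriesIn J X := fun p q => h (hX p q)

theorem EntriesIn.zero (I : Ideal B) : EntriesIn I (0 : Matrix (Fin 2) (Fin 2) B) :=
  fun _ _ => I.zero_mem

theorem EntriesIn.add {I : Ideal B} {X Y : Matrix (Fin 2) (Fin 2) B}
    (hX : EntriesIn I X) (hY : EntriesIn I Y) : EntriesIn I (X + Y) :=
  fun p q => I.add_mem (hX p q) (hY p q)

theorem EntriesIn.sub {I : Ideal B} {X Y : Matrix (Fin 2) (Fin 2) B}
    (hX : EntriesIn I X) (hY : EntriesIn I Y) : EntriesIn I (X - Y) :=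
  fun p q => I.sub_mem (hX p q) (hY p q)

theorem EntriesIn.neg {I : Ideal B} {X : Matrix (Fin 2) (Fin 2) B}
    (hX : EntriesIn I X) : EntriesIn I (-X) :=
  fun p q => I.neg_mem (hX p q)

theorem EntriesIn.smul {I : Ideal B} {X : Matrix (Fin 2) (Fin 2) B} (c : B)
    (hX : EntriesIn I X) : EntriesIn I (c • X) :=
  fun p q => I.mul_mem_left c (hX p q)

theorem EntriesIn.smul_of_mem {I : Ideal B} {c : B} (hc : c ∈ I)
    (X : Matrix (Fin 2) (Fin 2) B) : EntriesIn I (c • X) :=
  fun p q => I.mul_mem_right (X p q) hc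

theorem EntriesIn.smul_mul {I J : Ideal B} {c : B} (hc : c ∈ I)
    {X : Matrix (Fin 2) (Fin 2) B} (hX : EntriesIn J X) : EntriesIn (I * J) (c • X) :=
  fun p q => Ideal.mul_mem_mul hc (hX p q)

theorem EntriesIn.sum {I : Ideal B} {ι : Type*} (s : Finset ι)
    {X : ι → Matrix (Fin 2) (Fin 2) B} (hX : ∀ a ∈ s, EntriesIn I (X a)) :
    EntriesIn I (∑ a ∈ s, X a) := by
  intro p q
  rw [Matrix.sum_apply]
  exact I.sum_mem fun a ha => hX a ha p q

theorem EntriesIn.mul {I J : Ideal B} {X Y : Matrix (Fin 2) (Fin 2) B}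
    (hX : EntriesIn I X) (hY : EntriesIn J Y) : EntriesIn (I * J) (X * Y) := by
  intro p q
  rw [Matrix.mul_apply]
  exact (I * J).sum_mem fun a _ => Ideal.mul_mem_mul (hX p a) (hY a q)

theorem EntriesIn.mul_right {I : Ideal B} {X : Matrix (Fin 2) (Fin 2) B}
    (hX : EntriesIn I X) (Y : Matrix (Fin 2) (Fin 2) B) : EntriesIn I (X * Y) := by
  intro p q
  rw [Matrix.mul_apply]
  exact I.sum_mem fun a _ => I.mul_mem_right _ (hX p a)

theorem EntriesIn.mul_left {I : Ideal B} {X : Matrix (Fin 2) (Fin 2) B}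
    (hX : EntriesIn I X) (Y : Matrix (Fin 2) (Fin 2) B) : EntriesIn I (Y * X) := by
  intro p q
  rw [Matrix.mul_apply]
  exact I.sum_mem fun a _ => I.mul_mem_left _ (hX a q)

theorem entriesIn_iff_map_mk_eq_zero {I : Ideal B} {X : Matrix (Fin 2) (Fin 2) B} :
    EntriesIn I X ↔ X.map (Ideal.Quotient.mk I) = 0 := by
  constructor
  · intro h
    ext p q
    simpa [Ideal.Quotient.eq_zero_iff_mem] using h p q
  · intro h p q
    have := congrFun (congrFun h p) q
    simpa [Ideal.Quotient.eq_zero_iff_mem] using this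

/-- `X` is a scalar matrix modulo the ideal `I`. -/
def IsScalarMod (I : Ideal B) (X : Matrix (Fin 2) (Fin 2) B) : Prop :=
  X 0 1 ∈ I ∧ X 1 0 ∈ I ∧ X 0 0 - X 1 1 ∈ I

theorem IsScalarMod.mono {I J : Ideal B} (h : I ≤ J) {X : Matrix (Fin 2) (Fin 2) B}
    (hX : IsScalarMod I X) : IsScalarMod J X :=
  ⟨h hX.1, h hX.2.1, h hX.2.2⟩

theorem EntriesIn.isScalarMod {I : Ideal B} {X : Matrix (Fin 2) (Fin 2) B}
    (hX : EntriesIn I X) : IsScalarMod I X :=
  ⟨hX 0 1, hX 1 0, I.sub_mem (hX 0 0) (hX 1 1)⟩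

theorem IsScalarMod.zero (I : Ideal B) : IsScalarMod I (0 : Matrix (Fin 2) (Fin 2) B) :=
  (EntriesIn.zero I).isScalarMod

theorem IsScalarMod.add {I : Ideal B} {X Y : Matrix (Fin 2) (Fin 2) B}
    (hX : IsScalarMod I X) (hY : IsScalarMod I Y) : IsScalarMod I (X + Y) := by
  refine ⟨I.add_mem hX.1 hY.1, I.add_mem hX.2.1 hY.2.1, ?_⟩
  have : (X + Y) 0 0 - (X + Y) 1 1 = (X 0 0 - X 1 1) + (Y 0 0 - Y 1 1) := by
    simp only [Matrix.add_apply]; ring
  rw [this]
  exact I.add_mem hX.2.2 hY.2.2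

theorem IsScalarMod.sum {I : Ideal B} {ι : Type*} (s : Finset ι)
    {X : ι → Matrix (Fin 2) (Fin 2) B} (hX : ∀ a ∈ s, IsScalarMod I (X a)) :
    IsScalarMod I (∑ a ∈ s, X a) := by
  classical
  induction s using Finset.induction_on with
  | empty => simpa using IsScalarMod.zero I
  | insert a s ha ih =>
    rw [Finset.sum_insert ha]
    exact (hX a (Finset.mem_insert_self a s)).add
      (ih fun b hb => hX b (Finset.mem_insert_of_mem hb))

theorem IsScalarMod.smul_mul {I J : Ideal B} {c : B} (hc : c ∈ I)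
    {X : Matrix (Fin 2) (Fin 2) B} (hX : IsScalarMod J X) : IsScalarMod (I * J) (c • X) := by
  refine ⟨Ideal.mul_mem_mul hc hX.1, Ideal.mul_mem_mul hc hX.2.1, ?_⟩
  have : (c • X) 0 0 - (c • X) 1 1 = c * (X 0 0 - X 1 1) := by
    simp only [Matrix.smul_apply, smul_eq_mul]; ring
  rw [this]
  exact Ideal.mul_mem_mul hc hX.2.2

end EntriesIn

section Coord

variable {B : Type v} [CommRing B]

/-- The `a`-th coordinate functional `X ↦ [X, M a]_{i a, j a}`. -/
def ellCoord (M : Fin 3 → Matrix (Fin 2) (Fin 2) B)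
    (i j : Fin 3 → Fin 2) (a : Fin 3) (X : Matrix (Fin 2) (Fin 2) B) : B :=
  (X * M a - M a * X) (i a) (j a)

/-- `X - ∑ a, ℓ_a(X) • E a`. -/
def Tmap (M E : Fin 3 → Matrix (Fin 2) (Fin 2) B)
    (i j : Fin 3 → Fin 2) (X : Matrix (Fin 2) (Fin 2) B) : Matrix (Fin 2) (Fin 2) B :=
  X - ∑ a, ellCoord M i j a X • E a

variable (M E : Fin 3 → Matrix (Fin 2) (Fin 2) B) (i j : Fin 3 → Fin 2)

theorem ellCoord_add (a : Fin 3) (X Y : Matrix (Fin 2) (Fin 2) B) :
    ellCoord M i j a (X + Y) = ellCoord M i j a X + ellCoord M i j a Y := by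
  simp only [ellCoord, add_mul, mul_add, Matrix.sub_apply, Matrix.add_apply]; ring

theorem ellCoord_smul (a : Fin 3) (c : B) (X : Matrix (Fin 2) (Fin 2) B) :
    ellCoord M i j a (c • X) = c * ellCoord M i j a X := by
  simp only [ellCoord, Matrix.smul_mul, Matrix.mul_smul, Matrix.sub_apply, Matrix.smul_apply,
    smul_eq_mul]; ring

theorem ellCoord_zero (a : Fin 3) : ellCoord M i j a 0 = 0 := by
  simp [ellCoord]

theorem ellCoord_neg (a : Fin 3) (X : Matrix (Fin 2) (Fin 2) B) :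
    ellCoord M i j a (-X) = - ellCoord M i j a X := by
  simp only [ellCoord, Matrix.neg_mul, Matrix.mul_neg, Matrix.sub_apply, Matrix.neg_apply]; ring

theorem ellCoord_sum {ι : Type*} (s : Finset ι) (a : Fin 3)
    (X : ι → Matrix (Fin 2) (Fin 2) B) :
    ellCoord M i j a (∑ b ∈ s, X b) = ∑ b ∈ s, ellCoord M i j a (X b) := by
  classical
  induction s using Finset.induction_on with
  | empty => simp [ellCoord_zero]
  | insert b s hb ih => rw [Finset.sum_insert hb, Finset.sum_insert hb, ellCoord_add, ih]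

theorem Tmap_add (X Y : Matrix (Fin 2) (Fin 2) B) :
    Tmap M E i j (X + Y) = Tmap M E i j X + Tmap M E i j Y := by
  simp only [Tmap, ellCoord_add, add_smul, Finset.sum_add_distrib]; abel

theorem Tmap_smul (c : B) (X : Matrix (Fin 2) (Fin 2) B) :
    Tmap M E i j (c • X) = c • Tmap M E i j X := by
  simp only [Tmap, ellCoord_smul, smul_sub, Finset.smul_sum, smul_smul]

theorem Tmap_zero : Tmap M E i j 0 = 0 := by
  simp [Tmap, ellCoord_zero]

theorem Tmap_sum {ι : Type*} (s : Finset ι) (X : ι → Matrix (Fin 2) (Fin 2) B) :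
    Tmap M E i j (∑ b ∈ s, X b) = ∑ b ∈ s, Tmap M E i j (X b) := by
  classical
  induction s using Finset.induction_on with
  | empty => simp [Tmap_zero]
  | insert b s hb ih => rw [Finset.sum_insert hb, Finset.sum_insert hb, Tmap_add, ih]

theorem ellCoord_mem_of_entriesIn {I : Ideal B} (a : Fin 3) {X : Matrix (Fin 2) (Fin 2) B}
    (hX : EntriesIn I X) : ellCoord M i j a X ∈ I :=
  ((hX.mul_right (M a)).sub (hX.mul_left (M a))) (i a) (j a)

/-- Compatibility of `ellCoord` with ring homomorphisms. -/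
theorem ellCoord_map {B' : Type w} [CommRing B'] (f : B →+* B') (a : Fin 3)
    (X : Matrix (Fin 2) (Fin 2) B) :
    ellCoord (fun a => (M a).map f) i j a (X.map f) = f (ellCoord M i j a X) := by
  simp only [ellCoord]
  rw [← Matrix.map_mul, ← Matrix.map_mul, Matrix.sub_apply, Matrix.map_apply, Matrix.map_apply,
    Matrix.sub_apply, map_sub]

/-- Compatibility of `Tmap` with ring homomorphisms. -/
theorem Tmap_map {B' : Type w} [CommRing B'] (f : B →+* B')
    (X : Matrix (Fin 2) (Fin 2) B) :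
    Tmap (fun a => (M a).map f) (fun a => (E a).map f) i j (X.map f) =
      (Tmap M E i j X).map f := by
  ext p q
  simp only [Tmap, ellCoord_map, Matrix.sub_apply, Matrix.map_apply, Matrix.sum_apply,
    Matrix.smul_apply, smul_eq_mul, map_sub, map_sum, map_mul]

/-- Key one-step lemma: if `Tmap` sends the elementary matrices to scalars mod `𝔪`, then a
matrix `X` with entries in `I` all of whose coordinates `ℓ_a(X)` lie in `𝔪 * I` is scalar
modulo `𝔪 * I`. -/
theorem isScalarMod_of_ellCoord_mem (𝔪 I : Ideal B)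
    (hD2 : ∀ p q, IsScalarMod 𝔪 (Tmap M E i j (Matrix.single p q 1)))
    (X : Matrix (Fin 2) (Fin 2) B) (hX : EntriesIn I X)
    (hℓ : ∀ a, ellCoord M i j a X ∈ 𝔪 * I) : IsScalarMod (𝔪 * I) X := by
  have hdec : X = ∑ p, ∑ q, X p q • Matrix.single p q (1 : B) := by
    conv_lhs => rw [Matrix.matrix_eq_sum_single X]
    refine Finset.sum_congr rfl fun p _ => Finset.sum_congr rfl fun q _ => ?_
    rw [Matrix.smul_single, smul_eq_mul, mul_one]
  have h1 : IsScalarMod (𝔪 * I) (Tmap M E i j X) := by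
    rw [hdec, Tmap_sum]
    refine IsScalarMod.sum _ fun p _ => ?_
    rw [Tmap_sum]
    refine IsScalarMod.sum _ fun q _ => ?_
    rw [Tmap_smul, mul_comm]
    exact IsScalarMod.smul_mul (hX p q) (hD2 p q)
  have h2 : X = Tmap M E i j X + ∑ a, ellCoord M i j a X • E a := by
    simp [Tmap]
  rw [h2]
  refine h1.add (EntriesIn.isScalarMod ?_)
  exact EntriesIn.sum _ fun a _ => EntriesIn.smul_of_mem (hℓ a) _

end Coord

section Data

variable {Γ : Type u} [Monoid Γ]
variable (𝒪 : Type v) [CommRing 𝒪] [IsLocalRing 𝒪]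

/-- Rigidification data for a residual matrix representation. -/
structure RigidData (rbar : Γ →* Matrix (Fin 2) (Fin 2) (ResidueField 𝒪)) where
  g : Fin 3 → Γ
  i : Fin 3 → Fin 2
  j : Fin 3 → Fin 2
  E : Fin 3 → Matrix (Fin 2) (Fin 2) 𝒪
  c : Fin 3 → 𝒪
  hc : ∀ a, residue 𝒪 (c a) = rbar (g a) (i a) (j a)
  dual : ∀ a b, ellCoord (fun a => rbar (g a)) i j a ((E b).map (residue 𝒪)) =
    if a = b then 1 else 0
  decomp : ∀ p q, IsScalarMod ⊥
    (Tmap (fun a => rbar (g a)) (fun a => (E a).map (residue 𝒪)) i j (Matrix.single p q 1))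

variable {𝒪}
variable {rbar : Γ →* Matrix (Fin 2) (Fin 2) (ResidueField 𝒪)}
variable {A : Type w} [CommRing A] [IsLocalRing A] [Algebra 𝒪 A] [IsLocalHom (algebraMap 𝒪 A)]

/-- `r` lifts `rbar` (entrywise, through the canonical map of residue fields). -/
def IsLift (rbar : Γ →* Matrix (Fin 2) (Fin 2) (ResidueField 𝒪))
    (r : Γ →* Matrix (Fin 2) (Fin 2) A) : Prop :=
  ∀ γ, (r γ).map (residue A) = (rbar γ).map (ResidueField.map (algebraMap 𝒪 A))

/-- `r` is normalized with respect to the rigidification data `D`. -/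
def RigidData.Normalized (D : RigidData 𝒪 rbar) (r : Γ →* Matrix (Fin 2) (Fin 2) A) : Prop :=
  ∀ a, r (D.g a) (D.i a) (D.j a) = algebraMap 𝒪 A (D.c a)

theorem IsLift.sub_entriesIn {r r' : Γ →* Matrix (Fin 2) (Fin 2) A} (hr : IsLift rbar r)
    (hr' : IsLift rbar r') (γ : Γ) : EntriesIn (maximalIdeal A) (r' γ - r γ) := by
  intro p q
  rw [← residue_eq_zero_iff, Matrix.sub_apply, map_sub, sub_eq_zero]
  have h1 := congrFun (congrFun (hr γ) p) q
  have h2 := congrFun (congrFun (hr' γ) p) q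
  simp only [Matrix.map_apply] at h1 h2
  rw [h1, h2]

/-- The lifted dual matrices in `A`. -/
def RigidData.EA (D : RigidData 𝒪 rbar) (A : Type w) [CommRing A] [Algebra 𝒪 A] (a : Fin 3) :
    Matrix (Fin 2) (Fin 2) A :=
  (D.E a).map (algebraMap 𝒪 A)

theorem RigidData.EA_map_residue (D : RigidData 𝒪 rbar) (a : Fin 3) :
    (D.EA A a).map (residue A) =
      ((D.E a).map (residue 𝒪)).map (ResidueField.map (algebraMap 𝒪 A)) := by
  ext p q
  simp only [RigidData.EA, Matrix.map_apply]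
  exact (ResidueField.map_residue (algebraMap 𝒪 A) _).symm

theorem RigidData.dual_lift (D : RigidData 𝒪 rbar) {r : Γ →* Matrix (Fin 2) (Fin 2) A}
    (hr : IsLift rbar r) (a b : Fin 3) :
    ellCoord (fun a => r (D.g a)) D.i D.j a (D.EA A b) - (if a = b then 1 else 0) ∈
      maximalIdeal A := by
  rw [← residue_eq_zero_iff, map_sub, ← ellCoord_map, D.EA_map_residue]
  have h1 : (fun a => (r (D.g a)).map (residue A)) =
      fun a => (rbar (D.g a)).map (ResidueField.map (algebraMap 𝒪 A)) := by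
    funext a; exact hr (D.g a)
  rw [h1, ellCoord_map (fun a => rbar (D.g a)), D.dual a b]
  split_ifs <;> simp

theorem RigidData.decomp_lift (D : RigidData 𝒪 rbar) {r : Γ →* Matrix (Fin 2) (Fin 2) A}
    (hr : IsLift rbar r) (p q : Fin 2) :
    IsScalarMod (maximalIdeal A)
      (Tmap (fun a => r (D.g a)) (D.EA A) D.i D.j (Matrix.single p q 1)) := by
  have key : (Tmap (fun a => r (D.g a)) (D.EA A) D.i D.j (Matrix.single p q 1)).map (residue A) =
      (Tmap (fun a => rbar (D.g a)) (fun a => (D.E a).map (residue 𝒪)) D.i D.j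
        (Matrix.single p q 1)).map (ResidueField.map (algebraMap 𝒪 A)) := by
    rw [← Tmap_map, ← Tmap_map]
    have h1 : (fun a => (r (D.g a)).map (residue A)) =
        fun a => (rbar (D.g a)).map (ResidueField.map (algebraMap 𝒪 A)) := by
      funext a; exact hr (D.g a)
    have h2 : (fun a => (D.EA A a).map (residue A)) =
        fun a => ((D.E a).map (residue 𝒪)).map (ResidueField.map (algebraMap 𝒪 A)) := by
      funext a; exact D.EA_map_residue a
    rw [h1, h2]
    congr 1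
    ext p' q'
    simp only [Matrix.map_apply, Matrix.single_apply]
    split_ifs <;> simp
  have hd := D.decomp p q
  have e := fun p' q' => congrFun (congrFun key p') q'
  simp only [Matrix.map_apply] at e
  obtain ⟨h01, h10, hdiag⟩ := hd
  simp only [Ideal.mem_bot] at h01 h10 hdiag
  refine ⟨?_, ?_, ?_⟩
  · rw [← residue_eq_zero_iff, e, h01, map_zero]
  · rw [← residue_eq_zero_iff, e, h10, map_zero]
  · rw [← residue_eq_zero_iff, map_sub, e, e, ← map_sub, hdiag, map_zero]

/-- Rigidity: two normalized lifts which are conjugate are equal, and the conjugating matrix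
is a scalar. -/
theorem RigidData.rigid (D : RigidData 𝒪 rbar) [IsHausdorff (maximalIdeal A) A]
    {r r' : Γ →* Matrix (Fin 2) (Fin 2) A} (hr : IsLift rbar r) (hr' : IsLift rbar r')
    (hn : D.Normalized r) (hn' : D.Normalized r') (P : Matrix (Fin 2) (Fin 2) A)
    (hP : IsUnit P) (h : ∀ γ, P * r γ = r' γ * P) :
    r = r' ∧ ∃ u : A, IsUnit u ∧ P = u • (1 : Matrix (Fin 2) (Fin 2) A) := by
  obtain ⟨t, ht⟩ : ∃ t : A, t = P 1 1 := ⟨_, rfl⟩
  obtain ⟨X, hX⟩ : ∃ X : Matrix (Fin 2) (Fin 2) A,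
      X = P - t • (1 : Matrix (Fin 2) (Fin 2) A) := ⟨_, rfl⟩
  have hX11 : X 1 1 = 0 := by simp [hX, ht]
  have hPX : P = X + t • (1 : Matrix (Fin 2) (Fin 2) A) := by simp [hX]
  -- the commutation relation in terms of `X`
  have hcomm : ∀ γ, X * r γ - r' γ * X = t • (r' γ - r γ) := by
    intro γ
    have := h γ
    rw [hPX, add_mul, mul_add, Matrix.smul_mul, Matrix.mul_smul, one_mul, mul_one] at this
    rw [smul_sub, sub_eq_sub_iff_add_eq_add, this]
    abel
  have hell : ∀ a, ellCoord (fun a => r (D.g a)) D.i D.j a X =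
      ((r' (D.g a) - r (D.g a)) * X) (D.i a) (D.j a) := by
    intro a
    have h1 := congrFun (congrFun (hcomm (D.g a)) (D.i a)) (D.j a)
    rw [Matrix.smul_apply, Matrix.sub_apply (r' (D.g a)), hn a, hn' a, sub_self, smul_zero] at h1
    simp only [ellCoord]
    have h2 : X * r (D.g a) - r (D.g a) * X =
        (X * r (D.g a) - r' (D.g a) * X) + (r' (D.g a) - r (D.g a)) * X := by
      rw [sub_mul]; abel
    rw [h2, Matrix.add_apply, h1, zero_add]
  have hind : ∀ n : ℕ, EntriesIn (maximalIdeal A ^ n) X := by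
    intro n
    induction n with
    | zero => intro p q; simp
    | succ n ih =>
      have hs := isScalarMod_of_ellCoord_mem (fun a => r (D.g a)) (D.EA A) D.i D.j
        (maximalIdeal A) (maximalIdeal A ^ n) (fun p q => D.decomp_lift hr p q) X ih
        (fun a => by
          rw [hell a]
          exact ((hr.sub_entriesIn hr' (D.g a)).mul ih) (D.i a) (D.j a))
      rw [← pow_succ'] at hs
      obtain ⟨h01, h10, hd⟩ := hs
      rw [hX11, sub_zero] at hd
      intro p q
      fin_cases p <;> fin_cases q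
      · exact hd
      · exact h01
      · exact h10
      · show X 1 1 ∈ _
        rw [hX11]; exact Ideal.zero_mem _
  have hX0 : X = 0 := by
    ext p q
    refine IsHausdorff.haus (I := maximalIdeal A) inferInstance (X p q) fun n => ?_
    rw [SModEq.zero, smul_eq_mul, Ideal.mul_top]
    exact hind n p q
  have hPt : P = t • (1 : Matrix (Fin 2) (Fin 2) A) := by rw [hPX, hX0, zero_add]
  have htu : IsUnit t := by
    have hdet := (Matrix.isUnit_iff_isUnit_det P).mp hP
    rw [hPt, Matrix.det_smul, Matrix.det_one, mul_one, Fintype.card_fin] at hdet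
    simpa using hdet
  refine ⟨?_, t, htu, hPt⟩
  ext γ : 1
  have := h γ
  rw [hPt, Matrix.smul_mul, Matrix.mul_smul, one_mul, mul_one] at this
  obtain ⟨u, hu⟩ := htu
  have h3 : (↑u⁻¹ : A) • (t • r γ) = (↑u⁻¹ : A) • (t • r' γ) := by rw [this]
  rw [smul_smul, smul_smul, ← hu, Units.inv_mul, one_smul, one_smul] at h3
  exact h3

/-- Conjugation of a matrix-valued monoid homomorphism by an invertible matrix. -/
def conjHom (P : (Matrix (Fin 2) (Fin 2) A)ˣ) (r : Γ →* Matrix (Fin 2) (Fin 2) A) :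
    Γ →* Matrix (Fin 2) (Fin 2) A where
  toFun γ := (P : Matrix (Fin 2) (Fin 2) A) * r γ * (↑P⁻¹ : Matrix (Fin 2) (Fin 2) A)
  map_one' := by simp
  map_mul' x y := by
    simp only [map_mul]
    have h : (↑P⁻¹ : Matrix (Fin 2) (Fin 2) A) *
        ((P : Matrix (Fin 2) (Fin 2) A) * r y * (↑P⁻¹ : Matrix (Fin 2) (Fin 2) A)) =
        r y * (↑P⁻¹ : Matrix (Fin 2) (Fin 2) A) := by
      rw [← mul_assoc, ← mul_assoc, Units.inv_mul, one_mul]
    rw [mul_assoc ((P : Matrix (Fin 2) (Fin 2) A) * r x), h]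
    simp only [mul_assoc]

omit [IsLocalRing A] [IsLocalHom (algebraMap 𝒪 A)] [Algebra 𝒪 A] in
@[simp] theorem conjHom_apply (P : (Matrix (Fin 2) (Fin 2) A)ˣ)
    (r : Γ →* Matrix (Fin 2) (Fin 2) A) (γ : Γ) :
    conjHom P r γ = (P : Matrix (Fin 2) (Fin 2) A) * r γ * (↑P⁻¹ : Matrix (Fin 2) (Fin 2) A) :=
  rfl

omit [IsLocalRing A] [IsLocalHom (algebraMap 𝒪 A)] [Algebra 𝒪 A] in
theorem conjHom_mul_eq (P : (Matrix (Fin 2) (Fin 2) A)ˣ)
    (r : Γ →* Matrix (Fin 2) (Fin 2) A) (γ : Γ) :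
    conjHom P r γ * (P : Matrix (Fin 2) (Fin 2) A) = P * r γ := by
  rw [conjHom_apply, mul_assoc, Units.inv_mul, mul_one]

omit [IsLocalRing A] [IsLocalHom (algebraMap 𝒪 A)] [Algebra 𝒪 A] in
theorem conjHom_one (r : Γ →* Matrix (Fin 2) (Fin 2) A) : conjHom 1 r = r := by
  ext γ : 1
  simp

omit [IsLocalRing A] [IsLocalHom (algebraMap 𝒪 A)] [Algebra 𝒪 A] in
theorem conjHom_conjHom (P Q : (Matrix (Fin 2) (Fin 2) A)ˣ)
    (r : Γ →* Matrix (Fin 2) (Fin 2) A) : conjHom P (conjHom Q r) = conjHom (P * Q) r := by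
  ext γ : 1
  simp only [conjHom_apply, Units.val_mul, mul_inv_rev, mul_assoc]

omit [IsLocalRing A] [IsLocalHom (algebraMap 𝒪 A)] [Algebra 𝒪 A] in
/-- If `Q' ≡ Q` mod `J` then the conjugates by `Q'` and `Q` agree mod `J`. -/
theorem conjHom_sub_entriesIn {J : Ideal A} (Q Q' : (Matrix (Fin 2) (Fin 2) A)ˣ)
    (hQ : EntriesIn J ((Q' : Matrix (Fin 2) (Fin 2) A) - Q))
    (r : Γ →* Matrix (Fin 2) (Fin 2) A) (γ : Γ) :
    EntriesIn J (conjHom Q' r γ - conjHom Q r γ) := by
  have key : conjHom Q' r γ - conjHom Q r γ =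
      (((Q' : Matrix (Fin 2) (Fin 2) A) - Q) * r γ -
        conjHom Q r γ * ((Q' : Matrix (Fin 2) (Fin 2) A) - Q)) *
          (↑Q'⁻¹ : Matrix (Fin 2) (Fin 2) A) := by
    rw [mul_sub (conjHom Q r γ), conjHom_mul_eq, sub_mul ((Q' : Matrix (Fin 2) (Fin 2) A)),
      sub_sub_sub_cancel_right, sub_mul, mul_assoc (conjHom Q r γ), Units.mul_inv, mul_one,
      conjHom_apply]
  rw [key]
  exact ((hQ.mul_right _).sub (hQ.mul_left _)).mul_right _

omit [IsLocalHom (algebraMap 𝒪 A)] [Algebra 𝒪 A] in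
theorem isUnit_of_sub_one_entriesIn {P : Matrix (Fin 2) (Fin 2) A}
    (hP : EntriesIn (maximalIdeal A) (P - 1)) : IsUnit P := by
  rw [Matrix.isUnit_iff_isUnit_det, Matrix.det_fin_two]
  have h00 := hP 0 0
  have h01 := hP 0 1
  have h10 := hP 1 0
  have h11 := hP 1 1
  simp only [Matrix.sub_apply, Matrix.one_apply_eq, Matrix.one_apply_ne, ne_eq, zero_ne_one,
    one_ne_zero, not_false_eq_true, sub_zero] at h00 h01 h10 h11
  have hmem : 1 - (P 0 0 * P 1 1 - P 0 1 * P 1 0) ∈ maximalIdeal A := by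
    have : 1 - (P 0 0 * P 1 1 - P 0 1 * P 1 0) =
        -((P 0 0 - 1) * P 1 1) - (P 1 1 - 1) + P 0 1 * P 1 0 := by ring
    rw [this]
    exact Ideal.add_mem _ (Ideal.sub_mem _ (neg_mem (Ideal.mul_mem_right _ _ h00)) h11)
      (Ideal.mul_mem_right _ _ h01)
  by_contra hnu
  have h1 : (P 0 0 * P 1 1 - P 0 1 * P 1 0) ∈ maximalIdeal A := by
    rwa [IsLocalRing.mem_maximalIdeal, mem_nonunits_iff]
  have : (1 : A) ∈ maximalIdeal A := by
    have := Ideal.add_mem _ hmem h1
    simp at this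
  exact (Ideal.ne_top_iff_one (maximalIdeal A)).mp (maximalIdeal.isMaximal A).ne_top this

theorem IsLift.conjHom {r : Γ →* Matrix (Fin 2) (Fin 2) A} (hr : IsLift rbar r)
    (P : (Matrix (Fin 2) (Fin 2) A)ˣ)
    (hP : EntriesIn (maximalIdeal A) ((P : Matrix (Fin 2) (Fin 2) A) - 1)) :
    IsLift rbar (conjHom P r) := by
  intro γ
  rw [← hr γ]
  have h := conjHom_sub_entriesIn (1 : (Matrix (Fin 2) (Fin 2) A)ˣ) P (by simpa using hP) r γ
  rw [conjHom_one] at h
  ext p q
  have := h p q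
  rw [← residue_eq_zero_iff, Matrix.sub_apply, map_sub, sub_eq_zero] at this
  simpa using this

/-- The normalization defect of `r` at the coordinate `a`. -/
def RigidData.defect (D : RigidData 𝒪 rbar) (r : Γ →* Matrix (Fin 2) (Fin 2) A) (a : Fin 3) : A :=
  r (D.g a) (D.i a) (D.j a) - algebraMap 𝒪 A (D.c a)

theorem RigidData.defect_mem (D : RigidData 𝒪 rbar) {r : Γ →* Matrix (Fin 2) (Fin 2) A}
    (hr : IsLift rbar r) (a : Fin 3) : D.defect r a ∈ maximalIdeal A := by
  rw [RigidData.defect, ← residue_eq_zero_iff, map_sub, sub_eq_zero]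
  have h1 := congrFun (congrFun (hr (D.g a)) (D.i a)) (D.j a)
  simp only [Matrix.map_apply] at h1
  rw [h1, ← D.hc a]
  exact ResidueField.map_residue (algebraMap 𝒪 A) _

omit [IsLocalRing A] [IsLocalHom (algebraMap 𝒪 A)] in
theorem RigidData.normalized_iff_defect (D : RigidData 𝒪 rbar)
    (r : Γ →* Matrix (Fin 2) (Fin 2) A) : D.Normalized r ↔ ∀ a, D.defect r a = 0 := by
  simp only [RigidData.Normalized, RigidData.defect, sub_eq_zero]

/-- One step of the successive approximation. -/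
theorem RigidData.step (D : RigidData 𝒪 rbar) {s : Γ →* Matrix (Fin 2) (Fin 2) A}
    (hs : IsLift rbar s) {I : Ideal A} (hI : I ≤ maximalIdeal A)
    (hν : ∀ a, D.defect s a ∈ I) :
    ∃ P : (Matrix (Fin 2) (Fin 2) A)ˣ, EntriesIn I ((P : Matrix (Fin 2) (Fin 2) A) - 1) ∧
      ∀ a, D.defect (conjHom P s) a ∈ maximalIdeal A * I := by
  obtain ⟨Y, hY⟩ : ∃ Y : Matrix (Fin 2) (Fin 2) A, Y = -∑ b, D.defect s b • D.EA A b := ⟨_, rfl⟩
  have hYI : EntriesIn I Y := by
    rw [hY]
    exact (EntriesIn.sum _ fun b _ => EntriesIn.smul_of_mem (hν b) _).neg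
  have hPu : IsUnit (1 + Y) := isUnit_of_sub_one_entriesIn (by simpa using hYI.mono hI)
  obtain ⟨P, hP⟩ := hPu
  have hP1 : (P : Matrix (Fin 2) (Fin 2) A) - 1 = Y := by rw [hP]; simp
  refine ⟨P, by rw [hP1]; exact hYI, fun a => ?_⟩
  -- notation
  obtain ⟨s', hs'⟩ : ∃ s' : Γ →* Matrix (Fin 2) (Fin 2) A, s' = conjHom P s := ⟨_, rfl⟩
  rw [← hs']
  have hrel : ∀ γ, s' γ - s γ = Y * s γ - s' γ * Y := by
    intro γ
    have := conjHom_mul_eq P s γ
    rw [← hs', hP, mul_add, add_mul, mul_one, one_mul] at this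
    rw [sub_eq_sub_iff_add_eq_add, this, add_comm]
  have hdiff : ∀ γ, EntriesIn I (s' γ - s γ) := by
    intro γ
    rw [hrel γ]
    exact (hYI.mul_right _).sub (hYI.mul_left _)
  have hrel2 : s' (D.g a) - s (D.g a) =
      (Y * s (D.g a) - s (D.g a) * Y) - (s' (D.g a) - s (D.g a)) * Y := by
    rw [sub_mul, hrel (D.g a)]
    abel
  have hell : ellCoord (fun a => s (D.g a)) D.i D.j a Y + D.defect s a ∈ maximalIdeal A * I := by
    rw [hY, ellCoord_neg, ellCoord_sum]
    simp only [ellCoord_smul]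
    have : -∑ b, D.defect s b * ellCoord (fun a => s (D.g a)) D.i D.j a (D.EA A b) +
        D.defect s a = -∑ b, D.defect s b *
          (ellCoord (fun a => s (D.g a)) D.i D.j a (D.EA A b) - if a = b then 1 else 0) := by
      simp only [mul_sub, Finset.sum_sub_distrib, mul_ite, mul_one, mul_zero,
        Finset.sum_ite_eq, Finset.mem_univ, if_true]
      ring
    rw [this]
    refine neg_mem (Ideal.sum_mem _ fun b _ => ?_)
    rw [mul_comm (D.defect s b)]
    exact Ideal.mul_mem_mul (D.dual_lift hs a b) (hν b)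
  have hfinal : D.defect s' a =
      (ellCoord (fun a => s (D.g a)) D.i D.j a Y + D.defect s a) -
        ((s' (D.g a) - s (D.g a)) * Y) (D.i a) (D.j a) := by
    have h1 := congrFun (congrFun hrel2 (D.i a)) (D.j a)
    simp only [Matrix.sub_apply] at h1
    simp only [RigidData.defect, ellCoord, Matrix.sub_apply]
    linear_combination h1
  rw [hfinal]
  refine Ideal.sub_mem _ hell ?_
  have := ((hdiff (D.g a)).mul hYI) (D.i a) (D.j a)
  exact Ideal.mul_mono_left hI this

/-- Existence of a normalized conjugate, by successive approximation. -/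
theorem RigidData.exists_normalized (D : RigidData 𝒪 rbar) [IsAdicComplete (maximalIdeal A) A]
    {r : Γ →* Matrix (Fin 2) (Fin 2) A} (hr : IsLift rbar r) :
    ∃ (P : (Matrix (Fin 2) (Fin 2) A)ˣ) (r' : Γ →* Matrix (Fin 2) (Fin 2) A),
      EntriesIn (maximalIdeal A) ((P : Matrix (Fin 2) (Fin 2) A) - 1) ∧
      IsLift rbar r' ∧ D.Normalized r' ∧
      ∀ γ, (P : Matrix (Fin 2) (Fin 2) A) * r γ = r' γ * P := by
  classical
  -- the predicate along the iteration
  let Good : ℕ → (Matrix (Fin 2) (Fin 2) A)ˣ → Prop := fun n Q =>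
    EntriesIn (maximalIdeal A) ((Q : Matrix (Fin 2) (Fin 2) A) - 1) ∧
      ∀ a, D.defect (conjHom Q r) a ∈ maximalIdeal A ^ (n + 1)
  have hbase : Good 0 1 := by
    refine ⟨by simpa using EntriesIn.zero _, fun a => ?_⟩
    rw [conjHom_one, zero_add, pow_one]
    exact D.defect_mem hr a
  have hstep : ∀ n Q, Good n Q → ∃ Q', Good (n + 1) Q' ∧
      EntriesIn (maximalIdeal A ^ (n + 1))
        ((Q' : Matrix (Fin 2) (Fin 2) A) - (Q : Matrix (Fin 2) (Fin 2) A)) := by
    intro n Q hQ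
    have hI : maximalIdeal A ^ (n + 1) ≤ maximalIdeal A := Ideal.pow_le_self (Nat.succ_ne_zero n)
    obtain ⟨P, hP1, hP2⟩ := D.step (hr.conjHom Q hQ.1) hI hQ.2
    have hdiff : EntriesIn (maximalIdeal A ^ (n + 1))
        (((P * Q : (Matrix (Fin 2) (Fin 2) A)ˣ) : Matrix (Fin 2) (Fin 2) A) -
          (Q : Matrix (Fin 2) (Fin 2) A)) := by
      have : ((P * Q : (Matrix (Fin 2) (Fin 2) A)ˣ) : Matrix (Fin 2) (Fin 2) A) -
          (Q : Matrix (Fin 2) (Fin 2) A) = ((P : Matrix (Fin 2) (Fin 2) A) - 1) * Q := by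
        rw [sub_mul, one_mul, Units.val_mul]
      rw [this]
      exact hP1.mul_right _
    refine ⟨P * Q, ⟨?_, fun a => ?_⟩, hdiff⟩
    · have : ((P * Q : (Matrix (Fin 2) (Fin 2) A)ˣ) : Matrix (Fin 2) (Fin 2) A) - 1 =
          (((P * Q : (Matrix (Fin 2) (Fin 2) A)ˣ) : Matrix (Fin 2) (Fin 2) A) -
            (Q : Matrix (Fin 2) (Fin 2) A)) + ((Q : Matrix (Fin 2) (Fin 2) A) - 1) := by abel
      rw [this]
      exact (hdiff.mono hI).add hQ.1
    · rw [← conjHom_conjHom, pow_succ']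
      exact hP2 a
  -- build the sequence
  let seq : (n : ℕ) → {Q : (Matrix (Fin 2) (Fin 2) A)ˣ // Good n Q} := fun n =>
    Nat.rec (motive := fun n => {Q : (Matrix (Fin 2) (Fin 2) A)ˣ // Good n Q}) ⟨1, hbase⟩
      (fun n Q => ⟨(hstep n Q.1 Q.2).choose, (hstep n Q.1 Q.2).choose_spec.1⟩) n
  have hseq : ∀ n, EntriesIn (maximalIdeal A ^ (n + 1))
      (((seq (n + 1)).1 : Matrix (Fin 2) (Fin 2) A) - ((seq n).1 : Matrix (Fin 2) (Fin 2) A)) :=
    fun n => (hstep n (seq n).1 (seq n).2).choose_spec.2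
  -- entrywise limits
  have hcauchy : ∀ p q, ∃ L : A, ∀ n,
      ((seq n).1 : Matrix (Fin 2) (Fin 2) A) p q ≡ L
        [SMOD (maximalIdeal A ^ n • ⊤ : Submodule A A)] := by
    intro p q
    refine IsPrecomplete.prec (IsAdicComplete.toIsPrecomplete) ?_
    intro m n hmn
    induction n, hmn using Nat.le_induction with
    | base => rfl
    | succ n hmn ih =>
      refine ih.trans ?_
      rw [SModEq.sub_mem, smul_eq_mul, Ideal.mul_top]
      have := hseq n p q
      rw [Matrix.sub_apply] at this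
      have h2 : ((seq n).1 : Matrix (Fin 2) (Fin 2) A) p q -
          ((seq (n + 1)).1 : Matrix (Fin 2) (Fin 2) A) p q ∈ maximalIdeal A ^ (n + 1) := by
        rw [← neg_sub]; exact neg_mem this
      exact Ideal.pow_le_pow_right (by omega) h2
  choose L hL using hcauchy
  obtain ⟨Qm, hQm⟩ : ∃ Qm : Matrix (Fin 2) (Fin 2) A, Qm = Matrix.of L := ⟨_, rfl⟩
  have hQmn : ∀ n, EntriesIn (maximalIdeal A ^ n)
      (Qm - ((seq n).1 : Matrix (Fin 2) (Fin 2) A)) := by
    intro n p q
    have := hL p q n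
    rw [SModEq.sub_mem, smul_eq_mul, Ideal.mul_top] at this
    rw [Matrix.sub_apply, hQm, Matrix.of_apply, ← neg_sub]
    exact neg_mem this
  have hQm1 : EntriesIn (maximalIdeal A) (Qm - 1) := by
    have h1 := hQmn 1
    rw [pow_one] at h1
    have : Qm - 1 = (Qm - ((seq 1).1 : Matrix (Fin 2) (Fin 2) A)) +
        (((seq 1).1 : Matrix (Fin 2) (Fin 2) A) - 1) := by abel
    rw [this]
    exact h1.add (seq 1).2.1
  obtain ⟨Q, hQ⟩ := isUnit_of_sub_one_entriesIn hQm1
  rw [← hQ] at hQm1 hQmn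
  refine ⟨Q, conjHom Q r, hQm1, hr.conjHom Q hQm1, ?_, fun γ => (conjHom_mul_eq Q r γ).symm⟩
  rw [D.normalized_iff_defect]
  intro a
  refine IsHausdorff.haus (I := maximalIdeal A) inferInstance _ fun n => ?_
  rw [SModEq.zero, smul_eq_mul, Ideal.mul_top]
  have h1 := conjHom_sub_entriesIn (seq n).1 Q (hQmn n) r (D.g a) (D.i a) (D.j a)
  have h2 : D.defect (conjHom Q r) a =
      (conjHom Q r (D.g a) - conjHom (seq n).1 r (D.g a)) (D.i a) (D.j a) +
        D.defect (conjHom (seq n).1 r) a := by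
    simp only [RigidData.defect, Matrix.sub_apply]; ring
  rw [h2]
  exact Ideal.add_mem _ h1 (Ideal.pow_le_pow_right (Nat.le_succ n) ((seq n).2.2 a))

end Data

end Fermat.Agent.S53.Rigid
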