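import Mathlib
import Fermat.Agent.S53.Rigid.Basic

/-!
# Existence of rigidification data from Schur's lemma
-/

set_option autoImplicit false

namespace Fermat.Agent.S53.Rigid

open IsLocalRing Module

universe u v w

/-- In a finite-dimensional space of dimension `n`, a family of functionals with trivial common
kernel contains `n` functionals admitting a dual basis. -/
theorem exists_dual_coordinates {k : Type v} {Q : Type w} {ι : Type u} [Field k] [AddCommGroup Q]
    [Module k Q] [FiniteDimensional k Q] {n : ℕ} (hQ : finrank k Q = n)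
    (ℓ : ι → Module.Dual k Q) (hℓ : ∀ q, (∀ x, ℓ x q = 0) → q = 0) :
    ∃ (x : Fin n → ι) (e : Fin n → Q), (∀ a b, ℓ (x a) (e b) = if a = b then 1 else 0) ∧
      ∀ q, q = ∑ a, ℓ (x a) q • e a := by
  classical
  have hspan : Submodule.span k (Set.range ℓ) = ⊤ := by
    have h1 : (Submodule.span k (Set.range ℓ)).dualCoannihilator = ⊥ := by
      rw [eq_bot_iff]
      intro q hq
      rw [Submodule.mem_dualCoannihilator] at hq
      exact hℓ q fun x => hq _ (Submodule.subset_span ⟨x, rfl⟩)
    rw [← Subspace.dualCoannihilator_dualAnnihilator_eq (W := Submodule.span k (Set.range ℓ)), h1,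
      Submodule.dualAnnihilator_bot]
  obtain ⟨b, hbS, hbspan, hbli⟩ := exists_linearIndependent k (Set.range ℓ)
  let B : Basis b k (Module.Dual k Q) := Basis.mk hbli (by
    rw [Subtype.range_coe, hbspan, hspan])
  have : Finite b := Module.Finite.finite_basis B
  have hcard : Nat.card b = n := by
    rw [← finrank_eq_nat_card_basis B, Subspace.dual_finrank_eq, hQ]
  let eqv : b ≃ Fin n := Finite.equivFinOfCardEq hcard
  let B' : Basis (Fin n) k (Module.Dual k Q) := B.reindex eqv
  have hB'mem : ∀ a, ∃ x, ℓ x = B' a := by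
    intro a
    have : B' a = ((eqv.symm a : b) : Module.Dual k Q) := by
      simp [B', B]
    rw [this]
    exact hbS (eqv.symm a).2
  choose x hx using hB'mem
  refine ⟨x, fun b => (Module.evalEquiv k Q).symm (B'.dualBasis b), ?_, ?_⟩
  · intro a b
    rw [hx, Module.apply_evalEquiv_symm_apply, Basis.dualBasis_apply_self]
  · intro q
    rw [← sub_eq_zero, ← Module.forall_dual_apply_eq_zero_iff k]
    intro φ
    have hφ : φ ∈ Submodule.span k (Set.range B') := by
      rw [B'.span_eq]; trivial
    induction hφ using Submodule.span_induction with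
    | mem φ hφ =>
      obtain ⟨c, rfl⟩ := hφ
      rw [map_sub, map_sum, sub_eq_zero]
      simp only [map_smul, smul_eq_mul, hx, Module.apply_evalEquiv_symm_apply,
        Basis.dualBasis_apply_self, mul_ite, mul_one, mul_zero, Finset.sum_ite_eq,
        Finset.mem_univ, if_true]
    | zero => simp
    | add φ ψ _ _ hφ hψ => rw [LinearMap.add_apply, hφ, hψ, add_zero]
    | smul c φ _ hφ => rw [LinearMap.smul_apply, hφ, smul_zero]

section

variable {Γ : Type u} [Monoid Γ]

/-- The linear functional `X ↦ (X * M - M * X) p q`. -/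
def commL {k : Type v} [Field k] (M : Matrix (Fin 2) (Fin 2) k) (p q : Fin 2) :
    Matrix (Fin 2) (Fin 2) k →ₗ[k] k :=
  (Matrix.entryLinearMap k k p q) ∘ₗ (LinearMap.mulRight k M - LinearMap.mulLeft k M)

@[simp] theorem commL_apply {k : Type v} [Field k] (M : Matrix (Fin 2) (Fin 2) k) (p q : Fin 2)
    (X : Matrix (Fin 2) (Fin 2) k) : commL M p q X = (X * M - M * X) p q := rfl

theorem finrank_quot_scalars (k : Type v) [Field k] :
    finrank k (Matrix (Fin 2) (Fin 2) k ⧸
      Submodule.span k {(1 : Matrix (Fin 2) (Fin 2) k)}) = 3 := by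
  have h1 := Submodule.finrank_quotient_add_finrank
    (Submodule.span k {(1 : Matrix (Fin 2) (Fin 2) k)})
  rw [finrank_span_singleton (one_ne_zero), Module.finrank_matrix] at h1
  simp only [Fintype.card_fin, Module.finrank_self, mul_one] at h1
  omega

variable (𝒪 : Type v) [CommRing 𝒪] [IsLocalRing 𝒪]

theorem exists_rigidData (rbar : Γ →* Matrix (Fin 2) (Fin 2) (ResidueField 𝒪))
    (hschur : ∀ X : Matrix (Fin 2) (Fin 2) (ResidueField 𝒪),
      (∀ γ, X * rbar γ = rbar γ * X) → ∃ c : ResidueField 𝒪, X = c • 1) :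
    Nonempty (RigidData 𝒪 rbar) := by
  classical
  obtain ⟨W, hW⟩ : ∃ W : Submodule (ResidueField 𝒪) (Matrix (Fin 2) (Fin 2) (ResidueField 𝒪)),
    W = Submodule.span (ResidueField 𝒪) {(1 : Matrix (Fin 2) (Fin 2) (ResidueField 𝒪))} :=
      ⟨_, rfl⟩
  have hWker : ∀ (x : Γ × Fin 2 × Fin 2), W ≤ LinearMap.ker (commL (rbar x.1) x.2.1 x.2.2) := by
    intro x X hX
    rw [hW, Submodule.mem_span_singleton] at hX
    obtain ⟨c, rfl⟩ := hX
    simp [commL_apply]
  let ℓ : Γ × Fin 2 × Fin 2 → Module.Dual (ResidueField 𝒪)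
      (Matrix (Fin 2) (Fin 2) (ResidueField 𝒪) ⧸ W) :=
    fun x => W.liftQ (commL (rbar x.1) x.2.1 x.2.2) (hWker x)
  have hℓmk : ∀ x X, ℓ x (Submodule.Quotient.mk X) = (X * rbar x.1 - rbar x.1 * X) x.2.1 x.2.2 :=
    fun x X => rfl
  have hℓ : ∀ q, (∀ x, ℓ x q = 0) → q = 0 := by
    intro q hq
    obtain ⟨X, rfl⟩ := Submodule.Quotient.mk_surjective W q
    rw [Submodule.Quotient.mk_eq_zero, hW, Submodule.mem_span_singleton]
    obtain ⟨c, hc⟩ := hschur X (fun γ => by
      ext p q
      have := hq (γ, p, q)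
      rw [hℓmk, Matrix.sub_apply, sub_eq_zero] at this
      exact this)
    exact ⟨c, hc.symm⟩
  have hfr : finrank (ResidueField 𝒪) (Matrix (Fin 2) (Fin 2) (ResidueField 𝒪) ⧸ W) = 3 := by
    rw [hW]; exact finrank_quot_scalars _
  obtain ⟨x, e, hdual, hdec⟩ := exists_dual_coordinates hfr ℓ hℓ
  have hlift : ∀ b, ∃ Eb : Matrix (Fin 2) (Fin 2) 𝒪,
      Submodule.Quotient.mk (p := W) (Eb.map (residue 𝒪)) = e b := by
    intro b
    obtain ⟨Ē, hĒ⟩ := Submodule.Quotient.mk_surjective W (e b)
    refine ⟨Matrix.of fun p q => Function.surjInv (residue_surjective (R := 𝒪)) (Ē p q), ?_⟩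
    rw [← hĒ]
    congr 1
    ext p q
    simp [Function.surjInv_eq]
  choose E hE using hlift
  refine ⟨{
    g := fun a => (x a).1
    i := fun a => (x a).2.1
    j := fun a => (x a).2.2
    E := E
    c := fun a => Function.surjInv (residue_surjective (R := 𝒪)) (rbar (x a).1 (x a).2.1 (x a).2.2)
    hc := fun a => Function.surjInv_eq _ _
    dual := ?_
    decomp := ?_ }⟩
  · intro a b
    rw [← hdual a b, ← hE b]
    rfl
  · intro p q
    have hmem : Tmap (fun a => rbar (x a).1) (fun a => (E a).map (residue 𝒪))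
        (fun a => (x a).2.1) (fun a => (x a).2.2) (Matrix.single p q 1) ∈ W := by
      rw [← Submodule.Quotient.mk_eq_zero, Tmap, Submodule.Quotient.mk_sub, sub_eq_zero]
      conv_lhs => rw [hdec (Submodule.Quotient.mk (Matrix.single p q 1))]
      have hsum : ∀ (f : Fin 3 → Matrix (Fin 2) (Fin 2) (ResidueField 𝒪)),
          Submodule.Quotient.mk (p := W) (∑ a, f a) = ∑ a, Submodule.Quotient.mk (p := W) (f a) :=
        fun f => map_sum W.mkQ f Finset.univ
      rw [hsum]
      refine Finset.sum_congr rfl fun a _ => ?_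
      rw [Submodule.Quotient.mk_smul, hE a]
      rfl
    rw [hW, Submodule.mem_span_singleton] at hmem
    obtain ⟨c, hc⟩ := hmem
    rw [← hc]
    refine ⟨?_, ?_, ?_⟩ <;> simp

end

end Fermat.Agent.S53.Rigid
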