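import Fermat.Agent.S53.Spec
import Fermat.Agent.S53.Rigid.Exists

/-!
# Block B deliverable: `Spec.RigidStatement`
-/

set_option autoImplicit false

namespace Fermat.Agent.S53.Rigid

open IsLocalRing

theorem isLift_of_spec {𝒪 : Type} [CommRing 𝒪] [IsLocalRing 𝒪] {Γ : Type} [Group Γ]
    {rbar : Γ →* Matrix (Fin 2) (Fin 2) (ResidueField 𝒪)}
    {A : Type} [CommRing A] [IsLocalRing A] [Algebra 𝒪 A] [IsLocalHom (algebraMap 𝒪 A)]
    {r : Γ →* Matrix (Fin 2) (Fin 2) A} (h : Spec.IsLift rbar r) : IsLift rbar r := by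
  intro γ
  ext p q
  simpa using h γ p q

theorem spec_of_isLift {𝒪 : Type} [CommRing 𝒪] [IsLocalRing 𝒪] {Γ : Type} [Group Γ]
    {rbar : Γ →* Matrix (Fin 2) (Fin 2) (ResidueField 𝒪)}
    {A : Type} [CommRing A] [IsLocalRing A] [Algebra 𝒪 A] [IsLocalHom (algebraMap 𝒪 A)]
    {r : Γ →* Matrix (Fin 2) (Fin 2) A} (h : IsLift rbar r) : Spec.IsLift rbar r := by
  intro γ p q
  have := congrFun (congrFun (h γ) p) q
  simpa using this

/-- The normal form package attached to rigidification data. -/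
noncomputable def RigidData.toPackage {𝒪 : Type} [CommRing 𝒪] [IsLocalRing 𝒪] {Γ : Type} [Group Γ]
    {rbar : Γ →* Matrix (Fin 2) (Fin 2) (ResidueField 𝒪)} (D : RigidData 𝒪 rbar) :
    Spec.NormalFormPackage 𝒪 Γ rbar where
  m := 3
  g := D.g
  i := D.i
  j := D.j
  d := D.c
  base := fun a => (D.hc a).symm
  rigid := fun A _ _ _ _ _ r r' hr hr' hn hn' P h =>
    (D.rigid (isLift_of_spec hr) (isLift_of_spec hr') hn hn' P P.isUnit h).1
  exists_normalized := fun A _ _ _ _ _ r hr => by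
    obtain ⟨P, r', _, hr', hn', h⟩ := D.exists_normalized (isLift_of_spec hr)
    exact ⟨P, r', spec_of_isLift hr', hn', h⟩

/-- DELIVERABLE of block B. -/
theorem rigidStatement : Spec.RigidStatement := by
  intro 𝒪 _ _ _ _ Γ _ rbar₀ hschur
  obtain ⟨D⟩ := exists_rigidData 𝒪 rbar₀ hschur
  exact ⟨1, rbar₀, fun γ => by simp, ⟨D.toPackage⟩⟩

end Fermat.Agent.S53.Rigid
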